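import Fermat.Agent.HooleyRoots.Kloosterman
import Fermat.Agent.ErdosKac.Mertens
import Fermat.Agent.ErdosKac.Model
import Mathlib.NumberTheory.EulerProduct.Basic

/-!
# Incomplete Kloosterman sums and their moduli on average

Completion gives `w r √(k, r) (L / r + 1 + log r)` for `L` consecutive integers, and by the Euler
product `∑_{r ≤ R} w r ≪ R ^ (3/2) (log R) ^ 6`.
-/

set_option autoImplicit false
set_option linter.style.haveILetI false

noncomputable section

namespace FA.HooleyRoots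

open Finset
open FA.ErdosKac (primesUpTo mem_primesUpTo recipSum exists_abs_recipSum_sub_le)

/-- `e (k s̄ / r)` at `s` prime to `r`, else `0`. -/
def invExp (r : ℕ) [NeZero r] (k s : ℤ) : ℂ :=
  if Int.gcd s r = 1 then ZMod.stdAddChar ((k : ZMod r) * (s : ZMod r)⁻¹) else 0

theorem invExp_eq_sum (r : ℕ) [NeZero r] (k s : ℤ) :
    invExp r k s = ∑ x : (ZMod r)ˣ, if (s : ZMod r) = x then
      ZMod.stdAddChar ((k : ZMod r) * ((x⁻¹ : (ZMod r)ˣ) : ZMod r)) else 0 := by
  rw [invExp]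
  split_ifs with h
  · obtain ⟨x, hx⟩ : IsUnit (s : ZMod r) := by
      rw [ZMod.coe_int_isUnit_iff_isCoprime, isCoprime_comm, Int.isCoprime_iff_gcd_eq_one]
      exact h
    rw [← hx, ZMod.inv_coe_unit]
    simp only [Units.val_inj, sum_ite_eq, mem_univ, if_true]
  · refine (sum_eq_zero fun x _ => if_neg fun e => h ?_).symm
    rw [← Int.isCoprime_iff_gcd_eq_one, isCoprime_comm, ← ZMod.coe_int_isUnit_iff_isCoprime, e]
    exact x.isUnit

/-- The completing sum. -/
def progSum (r : ℕ) [NeZero r] (M : ℤ) (L : ℕ) (h : ZMod r) : ℂ :=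
  ∑ i ∈ range L, ZMod.stdAddChar (h * ((M + i : ℤ) : ZMod r))

theorem norm_progSum_le (r : ℕ) [NeZero r] (M : ℤ) (L : ℕ) {h : ZMod r} (hh : h ≠ 0) :
    ‖progSum r M L h‖ ≤ 2 / ‖(ZMod.stdAddChar h : ℂ) - 1‖ := by
  have hne : (ZMod.stdAddChar h : ℂ) ≠ 1 := fun e =>
    hh (ZMod.injective_stdAddChar (e.trans (AddChar.map_zero_eq_one _).symm))
  have e : progSum r M L h = ZMod.stdAddChar (h * (M : ZMod r)) *
      ∑ i ∈ range L, (ZMod.stdAddChar h : ℂ) ^ i := by
    rw [progSum, mul_sum]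
    refine sum_congr rfl fun i _ => ?_
    rw [Int.cast_add, Int.cast_natCast, mul_add, AddChar.map_add_eq_mul, mul_comm h (i : ZMod r),
      ← nsmul_eq_mul, AddChar.map_nsmul_eq_pow]
  have hnorm : ∀ z : ZMod r, ‖(ZMod.stdAddChar z : ℂ)‖ = 1 := fun z => by
    rw [ZMod.stdAddChar_apply]
    exact Circle.norm_coe _
  rw [e, norm_mul, hnorm, one_mul, geom_sum_eq hne, norm_div]
  gcongr
  exact (norm_sub_le _ _).trans (by rw [norm_pow, hnorm, one_pow, norm_one]; norm_num)

/-- Completion. -/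
theorem sum_invExp_eq (r : ℕ) [NeZero r] (k M : ℤ) (L : ℕ) :
    (r : ℂ) * ∑ i ∈ range L, invExp r k (M + i) =
      ∑ h : ZMod r, progSum r M L h * klSum r (-h) k := by
  simp only [progSum, klSum, sum_mul_sum]
  rw [sum_comm, mul_sum]
  refine sum_congr rfl fun i _ => ?_
  rw [sum_comm, invExp_eq_sum, mul_sum]
  refine sum_congr rfl fun x _ => ?_
  have e : ∀ h : ZMod r, ZMod.stdAddChar (h * ((M + i : ℤ) : ZMod r)) *
      ZMod.stdAddChar (-h * (x : ZMod r) + (k : ZMod r) * ((x⁻¹ : (ZMod r)ˣ) : ZMod r)) =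
      (ZMod.stdAddChar ((k : ZMod r) * ((x⁻¹ : (ZMod r)ˣ) : ZMod r)) : ℂ) *
        ZMod.stdAddChar (h * (((M + i : ℤ) : ZMod r) - (x : ZMod r))) := fun h => by
    rw [← AddChar.map_add_eq_mul, ← AddChar.map_add_eq_mul]
    congr 1
    ring
  simp only [e, ← mul_sum, AddChar.sum_mulShift _ (ZMod.isPrimitive_stdAddChar r), sub_eq_zero,
    ZMod.card, mul_ite, mul_zero]
  push_cast
  split_ifs <;> ring

/-- **Incomplete Kloosterman sums.** -/
theorem norm_sum_invExp_le (r : ℕ) [NeZero r] (k M : ℤ) (L : ℕ) :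
    ‖∑ i ∈ range L, invExp r k (M + i)‖ ≤
      weight r * Real.sqrt (Int.gcd k r) * ((L : ℝ) / r + (1 + Real.log r)) := by
  have hr : (0 : ℝ) < r := Nat.cast_pos.2 (NeZero.pos r)
  refine le_of_mul_le_mul_left ?_ hr
  rw [← Complex.norm_natCast r, ← norm_mul, sum_invExp_eq, Complex.norm_natCast]
  refine (norm_sum_le_of_le univ (fun h _ => (norm_mul_le (progSum r M L h) _).trans
    (mul_le_mul_of_nonneg_left (norm_klSum_le r _ k) (norm_nonneg _)))).trans ?_
  rw [← sum_mul, mul_comm (∑ h, ‖progSum r M L h‖), mul_left_comm]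
  refine mul_le_mul_of_nonneg_left ?_ (mul_nonneg (weight_nonneg r) (Real.sqrt_nonneg _))
  rw [mul_add, mul_div_cancel₀ _ hr.ne', ← add_sum_erase _ _ (mem_univ (0 : ZMod r))]
  refine add_le_add ?_ ((sum_le_sum fun h hh => norm_progSum_le r M L (mem_erase.1 hh).1).trans
    FA.OrderTheta.sum_two_div_norm_le)
  refine (norm_sum_le _ _).trans (le_of_eq ?_)
  simp only [zero_mul, AddChar.map_zero_eq_one, norm_one, sum_const, card_range, nsmul_eq_mul,
    mul_one]

/-- `w n / n ^ (3/2)`. -/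
def reducedWeight (n : ℕ) : ℝ := weight n / ((n : ℝ) * Real.sqrt n)

theorem reducedWeight_nonneg (n : ℕ) : 0 ≤ reducedWeight n :=
  div_nonneg (weight_nonneg n) (by positivity)

theorem reducedWeight_mul {m n : ℕ} (h : m.Coprime n) :
    reducedWeight (m * n) = reducedWeight m * reducedWeight n := by
  rw [reducedWeight, reducedWeight, reducedWeight, weight_mul h, Nat.cast_mul,
    Real.sqrt_mul (Nat.cast_nonneg m), mul_mul_mul_comm, mul_div_mul_comm]

/-- The Euler factors. -/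
theorem summable_and_tsum_reducedWeight {p : ℕ} (hp : p.Prime) :
    Summable (fun j : ℕ => reducedWeight (p ^ j)) ∧
      ∑' j : ℕ, reducedWeight (p ^ j) ≤ 1 + 6 * (p : ℝ)⁻¹ := by
  have hp2 : (2 : ℝ) ≤ p := Nat.ofNat_le_cast.2 hp.two_le
  obtain ⟨q, hq⟩ : ∃ q, q = (Real.sqrt p)⁻¹ := ⟨_, rfl⟩
  have hs : 4 / 3 ≤ Real.sqrt p := Real.le_sqrt_of_sq_le (by linarith)
  have hq0 : 0 ≤ q := by rw [hq]; positivity
  have hq1 : q ≤ 3 / 4 := by
    rw [hq, inv_le_comm₀ (by linarith) (by norm_num)]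
    linarith
  have hqq : q * q = (p : ℝ)⁻¹ := by
    rw [hq, ← mul_inv, Real.mul_self_sqrt (by linarith)]
  have htail : ∀ j : ℕ, reducedWeight (p ^ (j + 2)) = (p : ℝ)⁻¹ * q ^ j := fun j => by
    rw [reducedWeight, weight_prime_pow hp, if_neg (by omega), Nat.cast_pow,
      div_mul_cancel_left₀ (pow_ne_zero _ (by linarith)), ← hqq, hq, Real.sqrt_eq_rpow,
      ← Real.rpow_natCast_mul (by linarith), mul_comm ((j + 2 : ℕ) : ℝ),
      Real.rpow_mul_natCast (by linarith), ← Real.sqrt_eq_rpow, ← inv_pow, pow_add]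
    ring
  have hgeo := summable_geometric_of_lt_one hq0 (by linarith)
  have hsum : Summable (fun j : ℕ => reducedWeight (p ^ j)) :=
    (summable_nat_add_iff 2).1 ((hgeo.mul_left (p : ℝ)⁻¹).congr fun j => (htail j).symm)
  refine ⟨hsum, ?_⟩
  rw [← hsum.sum_add_tsum_nat_add 2, tsum_congr htail, tsum_mul_left,
    tsum_geometric_of_lt_one hq0 (by linarith), sum_range_succ, sum_range_one, pow_zero, pow_one]
  have e0 : reducedWeight 1 = 1 := by simp [reducedWeight, weight_one]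
  have e1 : reducedWeight p = 2 * (p : ℝ)⁻¹ := by
    have := weight_prime_pow hp 1
    rw [pow_one, if_pos rfl] at this
    rw [reducedWeight, this]
    field_simp
  rw [e0, e1]
  have h4 : (1 - q)⁻¹ ≤ 4 := by
    rw [inv_le_comm₀ (by linarith) (by norm_num)]
    linarith
  nlinarith [inv_nonneg.2 (by linarith : (0 : ℝ) ≤ p)]

/-- **The weights on average.** -/
theorem exists_sum_weight_le : ∃ C : ℝ, 0 < C ∧ ∀ R : ℕ,
    ∑ r ∈ Icc 1 R, weight r ≤ C * ((R : ℝ) * Real.sqrt R) * (1 + Real.log R) ^ 6 := by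
  obtain ⟨C, hC⟩ := exists_abs_recipSum_sub_le
  refine ⟨max (Real.exp (6 * C)) 1, lt_max_of_lt_right one_pos, fun R => ?_⟩
  rcases Nat.eq_zero_or_pos R with rfl | hR
  · simp
  obtain ⟨hs, hh⟩ := EulerProduct.summable_and_hasSum_factoredNumbers_prod_filter_prime_tsum
    (f := reducedWeight) (by simp [reducedWeight, weight_one]) reducedWeight_mul
    (fun {p} hp => (summable_and_tsum_reducedWeight hp).1.congr fun j =>
      (Real.norm_of_nonneg (reducedWeight_nonneg _)).symm) (primesUpTo R)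
  rw [filter_true_of_mem fun p hp => (mem_primesUpTo.1 hp).1] at hh
  have hsub : ∀ n ∈ Icc 1 R, n ∈ Nat.factoredNumbers (primesUpTo R) := fun n hn => by
    rw [mem_Icc] at hn
    exact Nat.mem_factoredNumbers.2 ⟨by omega, fun p hp => mem_primesUpTo.2
      ⟨Nat.prime_of_mem_primeFactorsList hp, (Nat.le_of_mem_primeFactorsList hp).trans hn.2⟩⟩
  have h1 : ∑ n ∈ Icc 1 R, reducedWeight n ≤
      ∏ p ∈ primesUpTo R, (1 + 6 * (p : ℝ)⁻¹) := by
    refine le_trans ?_ (prod_le_prod (fun p _ => tsum_nonneg fun j => reducedWeight_nonneg _)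
      fun p hp => (summable_and_tsum_reducedWeight (mem_primesUpTo.1 hp).1).2)
    refine le_trans (le_of_eq ?_) (sum_le_hasSum ((Icc 1 R).attach.map
      ⟨fun n => ⟨n.1, hsub n.1 n.2⟩, fun a b h => Subtype.ext (by simpa using h)⟩)
      (fun n _ => reducedWeight_nonneg _) hh)
    rw [sum_map, ← sum_attach (Icc 1 R)]
    rfl
  have h2 : ∏ p ∈ primesUpTo R, (1 + 6 * (p : ℝ)⁻¹) ≤
      max (Real.exp (6 * C)) 1 * (1 + Real.log R) ^ 6 := by
    rcases eq_or_lt_of_le (show 1 ≤ R from hR) with rfl | h2R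
    · simp [primesUpTo, filter_singleton, Nat.not_prime_one]
    refine (prod_le_prod (fun p _ => by positivity)
      fun p _ => (add_comm (1 : ℝ) _).trans_le (Real.add_one_le_exp _)).trans ?_
    rw [← Real.exp_sum, ← mul_sum]
    have hl : 0 < Real.log R := Real.log_pos (Nat.one_lt_cast.2 h2R)
    have h3 := (abs_le.1 (hC R h2R)).2
    rw [recipSum] at h3
    refine (Real.exp_le_exp.2 (show _ ≤ 6 * C + (6 : ℕ) * Real.log (Real.log R) by
      push_cast; linarith)).trans ?_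
    rw [Real.exp_add, Real.exp_nat_mul, Real.exp_log hl]
    gcongr
    · exact le_max_left _ _
    · linarith
  refine le_trans (sum_le_sum (g := fun r => (R : ℝ) * Real.sqrt R * reducedWeight r)
    fun r hr => ?_) ?_
  · rw [mem_Icc] at hr
    have hr0 : (0 : ℝ) < r := Nat.cast_pos.2 hr.1
    rw [reducedWeight, ← mul_div_assoc, le_div_iff₀ (by positivity), mul_comm _ (weight r)]
    refine mul_le_mul_of_nonneg_left ?_ (weight_nonneg r)
    have hrR : (r : ℝ) ≤ R := Nat.cast_le.2 hr.2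
    gcongr
  · rw [← mul_sum, mul_comm (max _ _), mul_assoc ((R : ℝ) * Real.sqrt R)]
    exact mul_le_mul_of_nonneg_left (h1.trans h2) (by positivity)

end FA.HooleyRoots
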