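import Mathlib.RingTheory.Coprime.Lemmas
import Mathlib.Data.ZMod.Basic
import Mathlib.Data.Int.GCD
import Mathlib.Tactic

/-!
# The roots of `ν ^ 2 + 1` and the sums of two squares

Gauss: the roots `ν` modulo `n` of `ν ^ 2 + 1` correspond to the coprime `(r, s)` with
`r ^ 2 + s ^ 2 = n` and `-r < s ≤ r`, by `s ≡ ν r`. With `r a + s b = 1` the root is `s a - r b`.
-/

set_option autoImplicit false
set_option linter.style.haveILetI false

noncomputable section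

namespace FA.HooleyRoots

open Finset

/-- The pairs `(n, ν)` with `n ≤ N` and `ν` a root of `ν ^ 2 + 1` modulo `n`. -/
def rootPairs (N : ℕ) : Finset (ℕ × ℕ) :=
  (range (N + 1) ×ˢ range (N + 1)).filter fun x => x.2 < x.1 ∧ x.1 ∣ x.2 ^ 2 + 1

theorem mem_rootPairs {N : ℕ} {x : ℕ × ℕ} :
    x ∈ rootPairs N ↔ x.1 ≤ N ∧ x.2 < x.1 ∧ x.1 ∣ x.2 ^ 2 + 1 := by
  simp only [rootPairs, mem_filter, mem_product, mem_range]
  constructor
  · exact fun h => ⟨by omega, h.2⟩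
  · exact fun h => ⟨⟨by omega, by omega⟩, h.2⟩

/-- The coprime `(r, s)` with `-r < s ≤ r` and `r ^ 2 + s ^ 2 ≤ N`. -/
def gaussPairs (N : ℕ) : Finset (ℤ × ℤ) :=
  (Icc (1 : ℤ) (Nat.sqrt N) ×ˢ Icc (-(Nat.sqrt N : ℤ)) (Nat.sqrt N)).filter fun y =>
    -y.1 < y.2 ∧ y.2 ≤ y.1 ∧ Int.gcd y.1 y.2 = 1 ∧ y.1 ^ 2 + y.2 ^ 2 ≤ N

theorem natAbs_le_sqrt {N : ℕ} {r : ℤ} (h : r ^ 2 ≤ N) : |r| ≤ Nat.sqrt N := by
  rw [Int.abs_eq_natAbs, Nat.cast_le, Nat.le_sqrt']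
  have : ((r.natAbs ^ 2 : ℕ) : ℤ) ≤ N := by
    rw [Nat.cast_pow, Int.natAbs_sq]
    exact h
  exact_mod_cast this

theorem mem_gaussPairs {N : ℕ} {y : ℤ × ℤ} : y ∈ gaussPairs N ↔
    0 < y.1 ∧ -y.1 < y.2 ∧ y.2 ≤ y.1 ∧ Int.gcd y.1 y.2 = 1 ∧ y.1 ^ 2 + y.2 ^ 2 ≤ N := by
  simp only [gaussPairs, mem_filter, mem_product, mem_Icc]
  constructor
  · exact fun h => ⟨by omega, h.2⟩
  · intro h
    have h1 := abs_le.1 (natAbs_le_sqrt (r := y.1) (N := N) (by nlinarith [sq_nonneg y.2]))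
    have h2 := abs_le.1 (natAbs_le_sqrt (r := y.2) (N := N) (by nlinarith [sq_nonneg y.1]))
    exact ⟨⟨⟨h.1, h1.2⟩, h2⟩, h.2⟩

/-- `n` and the root of a representation. -/
def toRoot (y : ℤ × ℤ) : ℕ × ℕ :=
  ((y.1 ^ 2 + y.2 ^ 2).toNat,
    ((y.2 * Int.gcdA y.1 y.2 - y.1 * Int.gcdB y.1 y.2) % (y.1 ^ 2 + y.2 ^ 2)).toNat)

theorem bezout {r s : ℤ} (h : Int.gcd r s = 1) :
    r * Int.gcdA r s + s * Int.gcdB r s = 1 := by
  rw [← Int.gcd_eq_gcd_ab, h]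
  rfl

theorem toRoot_spec {y : ℤ × ℤ} (hy : 0 < y.1) :
    ((toRoot y).1 : ℤ) = y.1 ^ 2 + y.2 ^ 2 ∧
    ((toRoot y).2 : ℤ) =
      (y.2 * Int.gcdA y.1 y.2 - y.1 * Int.gcdB y.1 y.2) % (y.1 ^ 2 + y.2 ^ 2) := by
  have h : 0 < y.1 ^ 2 + y.2 ^ 2 := by positivity
  exact ⟨Int.toNat_of_nonneg h.le, Int.toNat_of_nonneg (Int.emod_nonneg _ h.ne')⟩

/-- The image is a root, and `s ≡ ν r`. -/
theorem toRoot_root {y : ℤ × ℤ} (hy : 0 < y.1) (hg : Int.gcd y.1 y.2 = 1) :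
    (toRoot y).2 < (toRoot y).1 ∧ (toRoot y).1 ∣ (toRoot y).2 ^ 2 + 1 ∧
      ((toRoot y).1 : ℤ) ∣ y.2 - (toRoot y).2 * y.1 := by
  obtain ⟨h1, h2⟩ := toRoot_spec hy
  obtain ⟨r, s⟩ := y
  simp only at *
  have hab := bezout hg
  generalize Int.gcdA r s = a at *
  generalize Int.gcdB r s = b at *
  have hn : 0 < r ^ 2 + s ^ 2 := by positivity
  have hmod : r ^ 2 + s ^ 2 ∣ (s * a - r * b) - (toRoot (r, s)).2 := by
    rw [h2]
    exact Int.dvd_self_sub_emod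
  refine ⟨?_, ?_, ?_⟩
  · have := Int.emod_lt_of_pos (s * a - r * b) hn
    rw [← h2, ← h1] at this
    exact_mod_cast this
  · refine Int.natCast_dvd_natCast.1 ?_
    push_cast
    rw [h1, show ((toRoot (r, s)).2 : ℤ) ^ 2 + 1 = (r ^ 2 + s ^ 2) * (a ^ 2 + b ^ 2) -
      ((s * a - r * b) - (toRoot (r, s)).2) * ((s * a - r * b) + (toRoot (r, s)).2) by
        linear_combination (-(r * a + s * b) - 1) * hab]
    exact dvd_sub (dvd_mul_right _ _) (hmod.mul_right _)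
  · rw [h1, show s - ((toRoot (r, s)).2 : ℤ) * r = (r ^ 2 + s ^ 2) * b +
      ((s * a - r * b) - (toRoot (r, s)).2) * r by linear_combination (-s) * hab]
    exact dvd_add (dvd_mul_right _ _) (hmod.mul_right _)

/-- Two representations in the domain with the same root are equal. -/
theorem rep_unique {r s r' s' n ν : ℤ} (hr : 0 < r) (hs : -r < s ∧ s ≤ r) (hr' : 0 < r')
    (hs' : -r' < s' ∧ s' ≤ r') (hn : r ^ 2 + s ^ 2 = n) (hn' : r' ^ 2 + s' ^ 2 = n)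
    (hν : n ∣ ν ^ 2 + 1) (h : n ∣ s - ν * r) (h' : n ∣ s' - ν * r') : r = r' ∧ s = s' := by
  have hn0 : n ≠ 0 := by rw [← hn]; positivity
  obtain ⟨α, hα⟩ : n ∣ r * r' + s * s' := by
    rw [show r * r' + s * s' = (ν ^ 2 + 1) * (r * r') + (s - ν * r) * s' +
      (s' - ν * r') * (ν * r) by ring]
    exact dvd_add (dvd_add (hν.mul_right _) (h.mul_right _)) (h'.mul_right _)
  obtain ⟨β, hβ⟩ : n ∣ r * s' - r' * s := by
    rw [show r * s' - r' * s = (s' - ν * r') * r - (s - ν * r) * r' by ring]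
    exact dvd_sub (h'.mul_right _) (h.mul_right _)
  have hunit : α ^ 2 + β ^ 2 = 1 := by
    refine mul_left_cancel₀ (mul_ne_zero hn0 hn0) ?_
    linear_combination (-(r * r' + s * s' + n * α)) * hα - (r * s' - r' * s + n * β) * hβ +
      (r' ^ 2 + s' ^ 2) * hn + n * hn'
  have e1 : r' = r * α - s * β := by
    refine mul_left_cancel₀ hn0 ?_
    linear_combination r * hα - s * hβ - r' * hn
  have e2 : s' = s * α + r * β := by
    refine mul_left_cancel₀ hn0 ?_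
    linear_combination s * hα + r * hβ - s' * hn
  have hα1 : -1 ≤ α ∧ α ≤ 1 := ⟨by nlinarith [sq_nonneg β], by nlinarith [sq_nonneg β]⟩
  have hβ1 : -1 ≤ β ∧ β ≤ 1 := ⟨by nlinarith [sq_nonneg α], by nlinarith [sq_nonneg α]⟩
  obtain ⟨hα1, hα2⟩ := hα1
  obtain ⟨hβ1, hβ2⟩ := hβ1
  interval_cases α <;> interval_cases β <;> first
    | (norm_num at hunit; done)
    | (simp only [mul_zero, mul_one, mul_neg, sub_zero, zero_sub, add_zero, zero_add] at e1 e2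
       omega)

/-- **Thue**: every root comes from a representation. -/
theorem exists_rep {n ν : ℕ} (hν : ν < n) (hd : n ∣ ν ^ 2 + 1) :
    ∃ r s : ℤ, r ^ 2 + s ^ 2 = n ∧ IsCoprime r s ∧ (n : ℤ) ∣ s - ν * r := by
  rcases eq_or_lt_of_le (show 1 ≤ n by omega) with rfl | hn1
  · exact ⟨1, 0, by norm_num, isCoprime_one_left, by simp⟩
  haveI : NeZero n := ⟨by omega⟩
  obtain ⟨m, hm⟩ : ∃ m, m = Nat.sqrt n := ⟨_, rfl⟩
  have hcard : (univ : Finset (ZMod n)).card < (range (m + 1) ×ˢ range (m + 1)).card := by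
    rw [card_univ, ZMod.card, card_product, card_range, hm]
    exact Nat.lt_succ_sqrt n
  obtain ⟨x, hx, y, hy, hxy, he⟩ := exists_ne_map_eq_of_card_lt_of_maps_to hcard
    (f := fun z : ℕ × ℕ => (z.2 : ZMod n) - (ν : ZMod n) * (z.1 : ZMod n))
    fun z _ => mem_univ _
  simp only [mem_product, mem_range] at hx hy
  obtain ⟨r, hr⟩ : ∃ r, r = (x.1 : ℤ) - y.1 := ⟨_, rfl⟩
  obtain ⟨s, hs⟩ : ∃ s, s = (x.2 : ℤ) - y.2 := ⟨_, rfl⟩
  have hsν : (n : ℤ) ∣ s - ν * r := by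
    rw [← ZMod.intCast_zmod_eq_zero_iff_dvd, hr, hs]
    push_cast
    linear_combination he
  obtain ⟨M, hM⟩ : (n : ℤ) ∣ (ν : ℤ) ^ 2 + 1 := by exact_mod_cast hd
  obtain ⟨k, hk⟩ := hsν
  have hpos : 0 < r ^ 2 + s ^ 2 := by
    by_contra hle
    have hr0 : r = 0 := by nlinarith [sq_nonneg r, sq_nonneg s]
    have hs0 : s = 0 := by nlinarith [sq_nonneg r, sq_nonneg s]
    exact hxy (Prod.ext (by omega) (by omega))
  have hm2 : (m : ℤ) ^ 2 ≤ n := by exact_mod_cast hm ▸ Nat.sqrt_le' n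
  have hrm : r ^ 2 ≤ (m : ℤ) ^ 2 := sq_le_sq' (by omega) (by omega)
  have hsm : s ^ 2 ≤ (m : ℤ) ^ 2 := sq_le_sq' (by omega) (by omega)
  obtain ⟨q, hq⟩ : ∃ q, q = r ^ 2 * M + 2 * ν * r * k + k ^ 2 * n := ⟨_, rfl⟩
  have hnq : r ^ 2 + s ^ 2 = n * q := by
    rw [hq, show s = ν * r + n * k by linear_combination hk]
    linear_combination r ^ 2 * hM
  have hn0 : (0 : ℤ) < n := by exact_mod_cast (show 0 < n by omega)
  rw [hnq] at hpos
  have hq1 : 0 < q := by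
    rcases lt_or_ge 0 q with h | h
    · exact h
    · nlinarith
  have hq2 : q ≤ 2 := by nlinarith
  rcases (show q = 1 ∨ q = 2 by omega) with h1 | h2
  · refine ⟨r, s, by rw [hnq, h1, mul_one],
      ⟨r * M + 2 * ν * k + k ^ 2 * r, k ^ 2 * s, ?_⟩, ⟨k, hk⟩⟩
    linear_combination h1 - hq + k ^ 2 * (hnq.trans (by rw [h1, mul_one]))
  · exfalso
    have h2n : r ^ 2 + s ^ 2 = 2 * n := by rw [hnq, h2, mul_comm]
    have hrn : r ^ 2 = (m : ℤ) ^ 2 := by nlinarith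
    have hmn : (m : ℤ) ^ 2 = n := by nlinarith
    have hdm : (m : ℤ) ∣ 2 := by
      rw [← h2, hq]
      refine dvd_add (dvd_add ?_ ?_) (Dvd.dvd.mul_left ?_ _)
      · rw [hrn, sq]
        exact (dvd_mul_right _ _).mul_right _
      · have : (m : ℤ) ∣ r := by
          rcases sq_eq_sq_iff_eq_or_eq_neg.1 hrn with h | h <;> rw [h]
          exact dvd_neg.2 dvd_rfl
        exact (this.mul_left _).mul_right _
      · rw [← hmn, sq]
        exact dvd_mul_right _ _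
    have hmn' : m ^ 2 = n := by exact_mod_cast hmn
    have := Nat.le_of_dvd two_pos (Int.natCast_dvd_natCast.1 (by exact_mod_cast hdm))
    have h4 : 4 ∣ ν ^ 2 + 1 := by
      interval_cases m <;> first
        | omega
        | (subst hmn'; exact hd)
    rw [Nat.dvd_iff_mod_eq_zero, Nat.add_mod, Nat.pow_mod] at h4
    have := Nat.mod_lt ν (show 4 > 0 by norm_num)
    interval_cases hν4 : ν % 4 <;> simp at h4

/-- **The parametrisation.** -/
theorem sum_rootPairs_eq {β : Type*} [AddCommMonoid β] (N : ℕ) (F : ℕ × ℕ → β) :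
    ∑ x ∈ rootPairs N, F x = ∑ y ∈ gaussPairs N, F (toRoot y) := by
  refine (sum_bij (fun y _ => toRoot y) ?_ ?_ ?_ fun _ _ => rfl).symm
  · intro y hy
    rw [mem_gaussPairs] at hy
    obtain ⟨h1, h2, -⟩ := toRoot_root hy.1 hy.2.2.2.1
    refine mem_rootPairs.2 ⟨?_, h1, h2⟩
    have := (toRoot_spec hy.1).1
    exact_mod_cast this.trans_le hy.2.2.2.2
  · intro y hy z hz e
    rw [mem_gaussPairs] at hy hz
    obtain ⟨-, hy2, hy3⟩ := toRoot_root hy.1 hy.2.2.2.1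
    obtain ⟨-, -, hz3⟩ := toRoot_root hz.1 hz.2.2.2.1
    rw [← e] at hz3
    obtain ⟨e1, e2⟩ := rep_unique hy.1 ⟨hy.2.1, hy.2.2.1⟩ hz.1 ⟨hz.2.1, hz.2.2.1⟩
      (toRoot_spec hy.1).1.symm (e ▸ (toRoot_spec hz.1).1.symm) (by exact_mod_cast hy2) hy3 hz3
    exact Prod.ext e1 e2
  · rintro ⟨n, ν⟩ hx
    rw [mem_rootPairs] at hx
    obtain ⟨hnN, hνn, hd⟩ := hx
    obtain ⟨r, s, hn, hco, hsν⟩ := exists_rep hνn hd
    have hrot : (n : ℤ) ∣ r - ν * (-s) := by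
      rw [show r - (ν : ℤ) * (-s) = ((ν : ℤ) ^ 2 + 1) * r + (s - ν * r) * ν by ring]
      exact dvd_add (Dvd.dvd.mul_right (by exact_mod_cast hd) _) (hsν.mul_right _)
    have hne : r ≠ 0 ∨ s ≠ 0 := by
      by_contra! h
      rw [h.1, h.2] at hn
      norm_num at hn
      omega
    obtain ⟨r', s', hn', hco', hsν', hdom⟩ : ∃ r' s' : ℤ, r' ^ 2 + s' ^ 2 = n ∧ IsCoprime r' s' ∧
        (n : ℤ) ∣ s' - ν * r' ∧ (0 < r' ∧ -r' < s' ∧ s' ≤ r') := by
      rcases (show (0 < r ∧ -r < s ∧ s ≤ r) ∨ (0 < -r ∧ -(-r) < -s ∧ -s ≤ -r) ∨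
          (0 < -s ∧ -(-s) < r ∧ r ≤ -s) ∨ (0 < s ∧ -s < -r ∧ -r ≤ s) by omega) with h | h | h | h
      · exact ⟨r, s, hn, hco, hsν, h⟩
      · refine ⟨-r, -s, by linear_combination hn, hco.neg_neg, ?_, h⟩
        rw [show -s - (ν : ℤ) * -r = -(s - ν * r) by ring]
        exact dvd_neg.2 hsν
      · exact ⟨-s, r, by linear_combination hn, hco.symm.neg_left, hrot, h⟩
      · refine ⟨s, -r, by linear_combination hn, hco.symm.neg_right, ?_, h⟩
        rw [show -r - (ν : ℤ) * s = -(r - ν * (-s)) by ring]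
        exact dvd_neg.2 hrot
    have hg := Int.isCoprime_iff_gcd_eq_one.1 hco'
    refine ⟨(r', s'), mem_gaussPairs.2 ⟨hdom.1, hdom.2.1, hdom.2.2, hg,
      by simp only; rw [hn']; exact_mod_cast hnN⟩, ?_⟩
    obtain ⟨h1, h2, h3⟩ := toRoot_root (y := (r', s')) hdom.1 hg
    have e1 : (toRoot (r', s')).1 = n := by
      have := (toRoot_spec (y := (r', s')) hdom.1).1
      simp only [hn'] at this
      exact_mod_cast this
    refine Prod.ext e1 ?_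
    rw [e1] at h1 h3
    have hcn : IsCoprime (n : ℤ) r' := by
      rw [← hn', add_comm, sq, sq]
      exact (hco'.symm.mul_left hco'.symm).add_mul_left_left r'
    have hdiff : (n : ℤ) ∣ ((toRoot (r', s')).2 : ℤ) - ν := by
      refine hcn.dvd_of_dvd_mul_right ?_
      rw [show (((toRoot (r', s')).2 : ℤ) - ν) * r' =
        (s' - ν * r') - (s' - (toRoot (r', s')).2 * r') by ring]
      exact dvd_sub hsν' h3
    refine Nat.ModEq.eq_of_lt_of_lt ?_ h1 hνn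
    exact (Int.natCast_modEq_iff.1 (Int.modEq_iff_dvd.2 hdiff)).symm

end FA.HooleyRoots
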