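import Fermat.Agent.QuadraticDivisor.Sums
import Fermat.Agent.HooleyRoots.Parametrisation

/-!
# The number of roots

`∑_{n ≤ N} ρ n = 3 / (2 π) N + O (√N log N)`, from the hyperbola method for `∑_{e ∣ n} χ₄ e`.
-/

set_option autoImplicit false

noncomputable section

open Finset
open scoped ArithmeticFunction.zeta ArithmeticFunction.Moebius Real

namespace FA.HooleyRoots

open FA.QuadDivisor

/-- `∑_{n ≤ M} (∑_{e ∣ n} χ₄ e) = π / 4 M + O (√M)`. -/
theorem abs_sum_chiSum_sub_le (M : ℕ) :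
    |(∑ n ∈ Ioc 0 M, (1 : ℝ) * (chiSum n : ℝ)) - π / 4 * M| ≤ 3 * Real.sqrt M := by
  rcases Nat.eq_zero_or_pos M with rfl | hM
  · simp
  obtain ⟨S, hS⟩ : ∃ S, S = Nat.sqrt M := ⟨_, rfl⟩
  have hSle : (S : ℝ) ≤ Real.sqrt M := hS ▸ Real.nat_sqrt_le_real_sqrt
  have hleS : Real.sqrt M ≤ S + 1 := hS ▸ Real.real_sqrt_le_nat_sqrt_succ
  have hsq : Real.sqrt M * Real.sqrt M = M := Real.mul_self_sqrt (Nat.cast_nonneg M)
  have hs0 := Real.sqrt_nonneg (M : ℝ)
  rw [chiSum, sum_weighted_mul (w := fun _ => (1 : ℝ)) fun _ _ => (one_mul 1).symm,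
    sum_congr rfl (g := fun b => ∑ a ∈ Ioc 0 (M / b), (chiFour a : ℝ)) fun b hb => by
      rw [mem_Ioc] at hb
      rw [zetaInt_apply (by omega), Int.cast_one]
      simp only [one_mul],
    sum_congr rfl fun b _ => (sum_filter_add_sum_filter_not (Ioc 0 (M / b)) (fun a => a ≤ S)
      (fun a => (chiFour a : ℝ))).symm, sum_add_distrib]
  have h1 : ∑ b ∈ Ioc 0 M, ∑ a ∈ (Ioc 0 (M / b)).filter (fun a => a ≤ S), (chiFour a : ℝ) =
      ∑ a ∈ Ioc 0 S, (chiFour a : ℝ) * (M / a : ℕ) := by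
    rw [sum_comm' (t' := Ioc 0 S) (s' := fun a => Ioc 0 (M / a))]
    · exact sum_congr rfl fun a _ => by rw [sum_const, Nat.card_Ioc, Nat.sub_zero, nsmul_eq_mul,
        mul_comm]
    · intro b a
      simp only [mem_Ioc, mem_filter]
      constructor
      · rintro ⟨⟨hb, -⟩, ⟨ha, hab⟩, haS⟩
        exact ⟨⟨hb, (Nat.le_div_iff_mul_le ha).2
          (mul_comm b a ▸ (Nat.le_div_iff_mul_le hb).1 hab)⟩, ha, haS⟩
      · rintro ⟨⟨hb, hba⟩, ha, haS⟩
        refine ⟨⟨hb, hba.trans (Nat.div_le_self _ _)⟩, ⟨ha, (Nat.le_div_iff_mul_le hb).2 ?_⟩, haS⟩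
        exact mul_comm a b ▸ (Nat.le_div_iff_mul_le ha).1 hba
  have h2 : |∑ b ∈ Ioc 0 M, ∑ a ∈ (Ioc 0 (M / b)).filter (fun a => ¬a ≤ S), (chiFour a : ℝ)| ≤
      Real.sqrt M := by
    refine (abs_sum_le_sum_abs _ _).trans
      ((sum_le_sum (g := fun b => if S < M / b then (1 : ℝ) else 0) fun b _ => ?_).trans ?_)
    · split_ifs with hb
      · rw [show (Ioc 0 (M / b)).filter (fun a => ¬a ≤ S) = Ico (S + 1) (M / b + 1) by
          ext a
          simp only [mem_filter, mem_Ioc, mem_Ico]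
          omega]
        exact abs_sum_Ico_chiFour_le (by omega)
      · rw [filter_false_of_mem (fun a ha => by rw [mem_Ioc] at ha; omega), sum_empty, abs_zero]
    · rw [sum_boole]
      refine le_trans (Nat.cast_le.2 (le_trans (card_le_card (t := Ioc 0 S) fun b hb => ?_)
        (le_of_eq (by rw [Nat.card_Ioc, Nat.sub_zero])))) hSle
      rw [mem_filter, mem_Ioc] at hb
      refine mem_Ioc.2 ⟨hb.1.1, ?_⟩
      by_contra! hbS
      have := Nat.div_le_div_left (a := M) (show S + 1 ≤ b from hbS) (show 0 < S + 1 by omega)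
      have := hS ▸ Nat.lt_succ_sqrt M
      have : M / (S + 1) < S + 1 := Nat.div_lt_of_lt_mul this
      omega
  have h3 : |(∑ a ∈ Ioc 0 S, (chiFour a : ℝ) * (M / a : ℕ)) - π / 4 * M| ≤ 2 * Real.sqrt M := by
    have hfloor : |(∑ a ∈ Ioc 0 S, (chiFour a : ℝ) * (M / a : ℕ)) -
        M * ∑ a ∈ Ioc 0 S, (chiFour a : ℝ) / a| ≤ S := by
      rw [mul_sum, ← sum_sub_distrib]
      refine (abs_sum_le_sum_abs _ _).trans ((sum_le_sum (g := fun _ => (1 : ℝ))
        fun a ha => ?_).trans (le_of_eq (by simp)))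
      have ha0 : 0 < a := (mem_Ioc.1 ha).1
      rw [mul_div_left_comm, ← mul_sub, abs_mul]
      have hχ : |(chiFour a : ℝ)| ≤ 1 := by
        rw [chiFour_apply, ZMod.χ₄_nat_eq_if_mod_four]
        split_ifs <;> norm_num
      refine mul_le_one₀ hχ (abs_nonneg _) ?_
      have hl : ((M / a : ℕ) : ℝ) ≤ (M : ℝ) / a := Nat.cast_div_le
      have hu : (M : ℝ) / a ≤ (M / a : ℕ) + 1 := by
        rw [div_le_iff₀ (Nat.cast_pos.2 ha0)]
        exact_mod_cast (Nat.lt_mul_div_succ M ha0).le.trans_eq (mul_comm _ _)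
      rw [abs_le]
      constructor <;> linarith
    have hmain : |(M : ℝ) * ∑ a ∈ Ioc 0 S, (chiFour a : ℝ) / a - π / 4 * M| ≤ Real.sqrt M := by
      rw [mul_comm (π / 4), ← mul_sub, abs_mul, Nat.abs_cast]
      refine (mul_le_mul_of_nonneg_left (abs_sum_chiFour_div_sub_le S) (Nat.cast_nonneg M)).trans ?_
      rw [mul_one_div, div_le_iff₀ (Nat.cast_pos.2 S.succ_pos), Nat.cast_add_one]
      nlinarith
    exact (abs_sub_le _ _ _).trans (by linarith)
  rw [h1]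
  rw [abs_le] at h2 h3 ⊢
  constructor <;> linarith

/-- **`∑_{n ≤ N} ρ n = 3 / (2 π) N + O (√N log N)`.** -/
theorem abs_sum_rootCount_sub_le (N : ℕ) :
    |(∑ n ∈ Ioc 0 N, (rootCount n : ℝ)) - 3 / (2 * π) * N| ≤
      6 * Real.sqrt N * (1 + Real.log N) := by
  rcases Nat.eq_zero_or_pos N with rfl | hN
  · simp
  obtain ⟨m, hm⟩ : ∃ m, m = Nat.sqrt N := ⟨_, rfl⟩
  have hm1 : 1 ≤ m := hm ▸ Nat.sqrt_pos.2 hN
  have hmle : (m : ℝ) ≤ Real.sqrt N := hm ▸ Real.nat_sqrt_le_real_sqrt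
  have hlem : Real.sqrt N ≤ m + 1 := hm ▸ Real.real_sqrt_le_nat_sqrt_succ
  have hsq : Real.sqrt N * Real.sqrt N = N := Real.mul_self_sqrt (Nat.cast_nonneg N)
  have hs0 := Real.sqrt_nonneg (N : ℝ)
  have e : ∑ n ∈ Ioc 0 N, (rootCount n : ℝ) = ∑ k ∈ Ioc 0 m,
      (μ k : ℝ) * ∑ i ∈ Ioc 0 (N / (k * k)), (1 : ℝ) * (chiSum i : ℝ) := by
    rw [hm, sum_congr rfl fun n _ => (cast_rootCount n).trans (one_mul _).symm,
      sum_weighted_mul (w := fun _ => (1 : ℝ)) fun _ _ => (one_mul 1).symm, ← sum_sqMoebius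
        (fun n => ∑ i ∈ Ioc 0 (N / n), (1 : ℝ) * (chiSum i : ℝ))]
    simp only [one_mul]
  have h1 : |(∑ k ∈ Ioc 0 m, (μ k : ℝ) * ∑ i ∈ Ioc 0 (N / (k * k)), (1 : ℝ) * (chiSum i : ℝ)) -
      π / 4 * N * ∑ k ∈ Ioc 0 m, (μ k : ℝ) / (k : ℝ) ^ 2| ≤
        3 * Real.sqrt N * (1 + Real.log N) + Real.sqrt N := by
    rw [mul_sum, ← sum_sub_distrib]
    refine (abs_sum_le_sum_abs _ _).trans ((sum_le_sum
      (g := fun k : ℕ => 3 * Real.sqrt N * (1 / (k : ℝ)) + 1) fun k hk => ?_).trans ?_)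
    · have hk0 : (0 : ℝ) < k := Nat.cast_pos.2 (mem_Ioc.1 hk).1
      rw [mul_div_left_comm, ← mul_sub, abs_mul]
      refine (mul_le_of_le_one_left (abs_nonneg _) (abs_moebius_real_le k)).trans ?_
      have hq := abs_sum_chiSum_sub_le (N / (k * k))
      have hl : ((N / (k * k) : ℕ) : ℝ) ≤ (N : ℝ) / (k : ℝ) ^ 2 := by
        rw [sq, ← Nat.cast_mul]
        exact Nat.cast_div_le
      have hu : (N : ℝ) / (k : ℝ) ^ 2 ≤ (N / (k * k) : ℕ) + 1 := by
        rw [div_le_iff₀ (pow_pos hk0 2), sq]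
        exact_mod_cast (Nat.lt_mul_div_succ N (mul_pos (mem_Ioc.1 hk).1
          (mem_Ioc.1 hk).1)).le.trans_eq (mul_comm _ _)
      have hsl : Real.sqrt ((N / (k * k) : ℕ) : ℝ) ≤ Real.sqrt N * (1 / (k : ℝ)) := by
        refine (Real.sqrt_le_sqrt hl).trans_eq ?_
        rw [Real.sqrt_div (Nat.cast_nonneg N), Real.sqrt_sq hk0.le, mul_one_div]
      have hp0 := mul_le_mul_of_nonneg_left hl (show 0 ≤ π / 4 by positivity)
      have hp1 := mul_le_mul_of_nonneg_left hu (show 0 ≤ π / 4 by positivity)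
      rw [mul_div_assoc]
      rw [abs_le] at hq ⊢
      constructor <;> nlinarith [Real.pi_le_four, Real.pi_pos]
    · rw [sum_add_distrib, ← mul_sum, sum_const, Nat.card_Ioc, Nat.sub_zero, nsmul_one,
        sum_inv_eq_harmonic]
      refine add_le_add (mul_le_mul_of_nonneg_left ((harmonic_le_one_add_log m).trans ?_)
        (by positivity)) hmle
      gcongr
      exact hm ▸ Nat.sqrt_le_self N
  have h2 : |π / 4 * N * (∑ k ∈ Ioc 0 m, (μ k : ℝ) / (k : ℝ) ^ 2) - 3 / (2 * π) * N| ≤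
      2 * Real.sqrt N := by
    rw [show 3 / (2 * π) * (N : ℝ) = π / 4 * N * (6 / π ^ 2) by field_simp; ring, ← mul_sub,
      abs_mul, abs_of_nonneg (by positivity)]
    refine (mul_le_mul_of_nonneg_left (abs_sum_moebius_sq_sub_le hm1) (by positivity)).trans ?_
    have hm0 : (1 : ℝ) ≤ m := Nat.one_le_cast.2 hm1
    rw [mul_one_div, div_le_iff₀ (by linarith)]
    nlinarith [Real.pi_le_four, Real.pi_pos]
  have hlog := mul_nonneg hs0 (Real.log_natCast_nonneg N)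
  rw [e]
  exact (abs_sub_le _ _ _).trans (by linarith)

/-- The pairs are counted by `ρ`. -/
theorem card_rootPairs (N : ℕ) : #(rootPairs N) = ∑ n ∈ Ioc 0 N, rootCount n := by
  rw [sum_congr rfl fun n _ => rootCount_apply n,
    ← card_sigma (t := fun n => (range n).filter fun r => n ∣ r ^ 2 + 1)]
  refine card_nbij' (fun x => ⟨x.1, x.2⟩) (fun x => (x.1, x.2)) ?_ ?_ (fun _ _ => rfl)
    fun _ _ => rfl
  · intro x hx
    obtain ⟨h1, h2, h3⟩ := mem_rootPairs.1 (mem_coe.1 hx)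
    simp only [mem_coe, mem_sigma, mem_Ioc, mem_filter, mem_range]
    exact ⟨⟨by omega, h1⟩, h2, h3⟩
  · intro x hx
    simp only [mem_coe, mem_sigma, mem_Ioc, mem_filter, mem_range] at hx
    exact mem_coe.2 (mem_rootPairs.2 ⟨hx.1.2, hx.2⟩)

end FA.HooleyRoots
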