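import Fermat.Agent.Kloosterman.Boxes
import Mathlib.Data.Nat.Factorization.Induction

/-!
# Kloosterman sums to composite moduli

`|S (a, k; r)| ≤ w r √(k, r)` for every `a`, with the multiplicative `w` equal to `2 √p` at a prime
and to `p ^ e` at a higher power. The prime moduli are Weil's bound, the rest is the trivial bound
and the Chinese remainder theorem.
-/

set_option autoImplicit false
set_option linter.style.haveILetI false

noncomputable section

namespace FA.HooleyRoots

open Finset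

/-- The Kloosterman sum `S (a, b; r)`. -/
def klSum (r : ℕ) [NeZero r] (a b : ZMod r) : ℂ :=
  ∑ x : (ZMod r)ˣ, ZMod.stdAddChar (a * (x : ZMod r) + b * ((x⁻¹ : (ZMod r)ˣ) : ZMod r))

/-- `2 √p` at a prime, `p ^ e` at a higher power, multiplicative. -/
def weight (r : ℕ) : ℝ :=
  r.factorization.prod fun p e => if e = 1 then 2 * Real.sqrt p else (p : ℝ) ^ e

theorem weight_nonneg (r : ℕ) : 0 ≤ weight r := by
  rw [weight, Finsupp.prod]
  refine Finset.prod_nonneg fun p _ => ?_
  split_ifs <;> positivity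

theorem weight_one : weight 1 = 1 := by simp [weight]

theorem weight_mul {m n : ℕ} (h : m.Coprime n) : weight (m * n) = weight m * weight n := by
  rw [weight, weight, weight, Nat.factorization_mul_of_coprime h]
  exact Finsupp.prod_add_index_of_disjoint h.disjoint_primeFactors _

theorem weight_prime_pow {p : ℕ} (hp : p.Prime) (e : ℕ) :
    weight (p ^ e) = if e = 1 then 2 * Real.sqrt p else (p : ℝ) ^ e := by
  rw [weight, hp.factorization_pow]
  exact Finsupp.prod_single_index (by simp)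

theorem norm_klSum_le_self {r : ℕ} [NeZero r] (a b : ZMod r) : ‖klSum r a b‖ ≤ r := by
  refine (norm_sum_le _ _).trans ?_
  simp only [ZMod.stdAddChar_apply, Circle.norm_coe, sum_const, card_univ, nsmul_eq_mul, mul_one]
  exact Nat.cast_le.2 ((Fintype.card_le_of_injective _ Units.val_injective).trans_eq (ZMod.card r))

theorem klSum_eq_sum_ne_zero {p : ℕ} [Fact p.Prime] (a b : ZMod p) :
    klSum p a b =
      ∑ x ∈ univ.filter (fun x : ZMod p => x ≠ 0), ZMod.stdAddChar (a * x + b * x⁻¹) := by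
  refine sum_nbij (fun x => (x : ZMod p)) (fun x _ => mem_filter.2 ⟨mem_univ _, x.ne_zero⟩)
    (fun x _ y _ h => Units.ext h) (fun z hz => ?_) fun x _ => ?_
  · exact ⟨Units.mk0 z (mem_filter.1 hz).2, mem_univ _, rfl⟩
  · rw [Units.val_inv_eq_inv_val]

/-- The prime moduli. -/
theorem norm_klSum_prime_le {p : ℕ} [hp : Fact p.Prime] (a : ZMod p) (k : ℤ) :
    ‖klSum p a k‖ ≤ 2 * Real.sqrt p * Real.sqrt (Int.gcd k p) := by
  have h1 : (1 : ℝ) ≤ Real.sqrt p := Real.one_le_sqrt.2 (Nat.one_le_cast.2 hp.out.one_le)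
  by_cases hk : (k : ZMod p) = 0
  · rw [ZMod.intCast_zmod_eq_zero_iff_dvd] at hk
    rw [show Int.gcd k p = p from Nat.gcd_eq_right (Int.natCast_dvd.1 hk), mul_assoc,
      Real.mul_self_sqrt (Nat.cast_nonneg p)]
    exact (norm_klSum_le_self a _).trans (by linarith [(Nat.cast_nonneg p : (0 : ℝ) ≤ p)])
  have hg : (1 : ℝ) ≤ Real.sqrt (Int.gcd k p) :=
    Real.one_le_sqrt.2 (Nat.one_le_cast.2 (Int.gcd_pos_of_ne_zero_right _
      (Int.natCast_ne_zero.2 hp.out.ne_zero)))
  refine le_trans ?_ (le_mul_of_one_le_right (by positivity) hg)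
  rcases eq_or_ne p 2 with rfl | h2
  · exact (norm_klSum_le_self a _).trans (by push_cast at h1 ⊢; linarith)
  rw [klSum_eq_sum_ne_zero]
  by_cases ha : a = 0
  · subst ha
    rw [sum_nbij' (t := univ.filter fun x : ZMod p => x ≠ 0)
        (g := fun x => ZMod.stdAddChar ((k : ZMod p) * x)) (·⁻¹) (·⁻¹)
        (fun u hu => mem_filter.2 ⟨mem_univ _, inv_ne_zero (mem_filter.1 hu).2⟩)
        (fun u hu => mem_filter.2 ⟨mem_univ _, inv_ne_zero (mem_filter.1 hu).2⟩)
        (fun u _ => inv_inv u) (fun u _ => inv_inv u) (fun u _ => by rw [zero_mul, zero_add]),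
      Kloosterman.sum_stdAddChar_mul_inv hk, norm_neg, norm_one]
    linarith
  · exact Kloosterman.norm_kloosterman_le h2 ha hk

/-- The Chinese remainder theorem for the character. -/
theorem stdAddChar_crt {m n : ℕ} [NeZero m] [NeZero n] (h : m.Coprime n) {u v : ℤ}
    (huv : u * n + v * m = 1) (y : ZMod (m * n)) :
    ZMod.stdAddChar y = ZMod.stdAddChar ((u : ZMod m) * (ZMod.chineseRemainder h y).1) *
      ZMod.stdAddChar ((v : ZMod n) * (ZMod.chineseRemainder h y).2) := by
  obtain ⟨z, rfl⟩ := ZMod.intCast_surjective y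
  rw [map_intCast (ZMod.chineseRemainder h), Prod.fst_intCast, Prod.snd_intCast,
    ← Int.cast_mul, ← Int.cast_mul,
    ZMod.stdAddChar_coe, ZMod.stdAddChar_coe, ZMod.stdAddChar_coe, ← Complex.exp_add]
  congr 1
  have hm : (m : ℂ) ≠ 0 := Nat.cast_ne_zero.2 (NeZero.ne m)
  have hn : (n : ℂ) ≠ 0 := Nat.cast_ne_zero.2 (NeZero.ne n)
  have huvC : (u : ℂ) * n + v * m = 1 := by exact_mod_cast huv
  push_cast
  field_simp
  linear_combination -(z : ℂ) * huvC

/-- Multiplicativity of the Kloosterman sums. -/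
theorem klSum_mul {m n : ℕ} [NeZero m] [NeZero n] (h : m.Coprime n) {u v : ℤ}
    (huv : u * n + v * m = 1) (a : ZMod (m * n)) (k : ℤ) :
    klSum (m * n) a k =
      klSum m (u * (ZMod.chineseRemainder h a).1) ((u * k : ℤ) : ZMod m) *
      klSum n (v * (ZMod.chineseRemainder h a).2) ((v * k : ℤ) : ZMod n) := by
  obtain ⟨E, hE⟩ : ∃ E : (ZMod (m * n))ˣ ≃* (ZMod m)ˣ × (ZMod n)ˣ,
      E = (Units.mapEquiv (ZMod.chineseRemainder h).toMulEquiv).trans MulEquiv.prodUnits :=
    ⟨_, rfl⟩
  have hv : ∀ x : (ZMod (m * n))ˣ, ZMod.chineseRemainder h (x : ZMod (m * n)) =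
      (((E x).1 : ZMod m), ((E x).2 : ZMod n)) := fun x => by
    subst hE
    rfl
  rw [klSum, klSum, klSum, sum_mul_sum, ← Fintype.sum_prod_type']
  refine Fintype.sum_equiv E.toEquiv _ _ fun x => ?_
  rw [stdAddChar_crt h huv, map_add (ZMod.chineseRemainder h),
    map_mul (ZMod.chineseRemainder h), map_mul (ZMod.chineseRemainder h),
    map_intCast (ZMod.chineseRemainder h), hv, hv, map_inv]
  simp only [Prod.fst_add, Prod.snd_add, Prod.fst_mul, Prod.snd_mul, Prod.fst_intCast,
    Prod.snd_intCast, Prod.fst_inv, Prod.snd_inv, mul_add, MulEquiv.toEquiv_eq_coe,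
    MulEquiv.coe_toEquiv]
  push_cast
  ring_nf

theorem gcd_mul_unit {u v k : ℤ} {m n : ℕ} (huv : u * n + v * m = 1) :
    Int.gcd (u * k) m = Int.gcd k m :=
  Nat.Coprime.gcd_mul_left_cancel _ (show Int.gcd u m = 1 from
    Int.isCoprime_iff_gcd_eq_one.1 ⟨n, v, by linear_combination huv⟩) |> fun e => by
      rw [Int.gcd, Int.gcd, Int.natAbs_mul]
      exact e

/-- **Weil's bound to a composite modulus**, trivial at the higher powers. -/
theorem norm_klSum_le (r : ℕ) : ∀ [NeZero r] (a : ZMod r) (k : ℤ),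
    ‖klSum r a k‖ ≤ weight r * Real.sqrt (Int.gcd k r) := by
  induction r using Nat.recOnPrimeCoprime with
  | zero => intro h; exact absurd rfl h.out
  | prime_pow p e hp =>
    intro _ a k
    rw [weight_prime_pow hp]
    split_ifs with he
    · subst he
      haveI : Fact (p ^ 1).Prime := ⟨by rwa [pow_one]⟩
      simpa using norm_klSum_prime_le a k
    · refine (norm_klSum_le_self a _).trans ?_
      rw [Nat.cast_pow]
      refine le_mul_of_one_le_right (by positivity) (Real.one_le_sqrt.2 (Nat.one_le_cast.2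
        (Int.gcd_pos_of_ne_zero_right _ ?_)))
      exact_mod_cast pow_ne_zero e hp.ne_zero
  | coprime m n hm hn h ihm ihn =>
    intro _ a k
    haveI : NeZero m := ⟨by omega⟩
    haveI : NeZero n := ⟨by omega⟩
    obtain ⟨v, u, huv'⟩ := Nat.isCoprime_iff_coprime.2 h
    have huv : u * n + v * m = 1 := by linear_combination huv'
    rw [klSum_mul h huv, norm_mul, weight_mul h, Int.gcd, Int.natAbs_natCast,
      h.gcd_mul, Nat.cast_mul, Real.sqrt_mul (Nat.cast_nonneg _), mul_mul_mul_comm]
    refine mul_le_mul ?_ ?_ (norm_nonneg _) (mul_nonneg (weight_nonneg m) (Real.sqrt_nonneg _))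
    · refine (ihm _ (u * k)).trans_eq ?_
      rw [gcd_mul_unit huv]
      rfl
    · refine (ihn _ (v * k)).trans_eq ?_
      rw [gcd_mul_unit (n := m) (v := u) (by linear_combination huv)]
      rfl

end FA.HooleyRoots
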