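import Fermat.Agent.HooleyRoots.Completion
import Fermat.Agent.HooleyRoots.Count
import Fermat.Agent.Equidistribution.Criterion

/-!
# Hooley's theorem on the roots of `ν ^ 2 + 1`

In Gauss's parametrisation `ν / n = s / (r n) - b / r` with `s b ≡ 1 (mod r)`, so the exponential
sum over the roots is, up to `O (|h| log x)`, a sum over `r ≤ √x` of incomplete Kloosterman sums.
-/

set_option autoImplicit false
set_option linter.style.haveILetI false

noncomputable section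

namespace FA.HooleyRoots

open Finset Filter Topology
open FA.ThreePrimes (eAdd eAdd_add eAdd_zero norm_eAdd eAdd_intCast eAdd_add_intCast)
open scoped Real

theorem stdAddChar_eq_eAdd {r : ℕ} [NeZero r] (z : ℤ) :
    (ZMod.stdAddChar (z : ZMod r) : ℂ) = eAdd ((z : ℝ) / r) := by
  rw [ZMod.stdAddChar_coe, eAdd]
  push_cast
  ring_nf

/-- The term of a representation. -/
theorem eAdd_toRoot {r : ℕ} [NeZero r] {s : ℤ} (hg : Int.gcd r s = 1) (h : ℤ) :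
    eAdd ((h : ℝ) * ((toRoot ((r : ℤ), s)).2 : ℝ) / ((toRoot ((r : ℤ), s)).1 : ℝ)) =
      eAdd ((h : ℝ) * s / ((r : ℝ) * ((r : ℝ) ^ 2 + (s : ℝ) ^ 2))) * invExp r (-h) s := by
  have hr : (0 : ℤ) < ((r : ℤ), s).1 := Int.natCast_pos.2 (NeZero.pos r)
  obtain ⟨h1, h2⟩ := toRoot_spec (y := ((r : ℤ), s)) hr
  have hab := bezout hg
  simp only at h1 h2
  obtain ⟨n, hn⟩ : ∃ n, n = (r : ℤ) ^ 2 + s ^ 2 := ⟨_, rfl⟩
  obtain ⟨c, hc⟩ : ∃ c, c = s * Int.gcdA r s - (r : ℤ) * Int.gcdB r s := ⟨_, rfl⟩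
  rw [← hn] at h1
  rw [← hn, ← hc] at h2
  have hn0 : (n : ℝ) ≠ 0 := by
    rw [hn]
    have := NeZero.ne r
    positivity
  have hr0 : (r : ℝ) ≠ 0 := Nat.cast_ne_zero.2 (NeZero.ne r)
  have e1 : ((toRoot ((r : ℤ), s)).1 : ℝ) = n := by exact_mod_cast h1
  have e2 : ((toRoot ((r : ℤ), s)).2 : ℝ) = (c : ℝ) - n * (c / n : ℤ) := by
    rw [show ((toRoot ((r : ℤ), s)).2 : ℝ) = ((c % n : ℤ) : ℝ) by exact_mod_cast h2,
      Int.emod_def]
    push_cast
    ring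
  have habR : (r : ℝ) * (Int.gcdA r s : ℤ) + (s : ℝ) * (Int.gcdB r s : ℤ) = 1 := by
    exact_mod_cast hab
  have hinv : ((s : ZMod r))⁻¹ = (Int.gcdB r s : ZMod r) := by
    refine ZMod.inv_eq_of_mul_eq_one _ _ _ ?_
    rw [← Int.cast_mul,
      show s * Int.gcdB r s = 1 - (r : ℤ) * Int.gcdA r s by linear_combination hab,
      Int.cast_sub, Int.cast_mul, Int.cast_one, Int.cast_natCast, ZMod.natCast_self, zero_mul,
      sub_zero]
  rw [invExp, if_pos (by rwa [Int.gcd_comm]), hinv,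
    ← Int.cast_mul (-h) (Int.gcdB r s), stdAddChar_eq_eAdd, ← eAdd_add,
    e1, e2, ← eAdd_add_intCast ((h : ℝ) * s / _ + _) (-(h * (c / n)))]
  congr 1
  rw [show (r : ℝ) ^ 2 + (s : ℝ) ^ 2 = (n : ℝ) by rw [hn]; push_cast; ring]
  have hnR : (n : ℝ) = (r : ℝ) ^ 2 + (s : ℝ) ^ 2 := by rw [hn]; push_cast; ring
  push_cast
  rw [hc]
  push_cast
  field_simp
  rw [hnR]
  linear_combination ((h : ℝ) * s) * habR

/-- **The bound at one `r`.** -/
theorem norm_row_le {r : ℕ} [NeZero r] {h : ℤ} (hh : h ≠ 0) (A B : ℤ)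
    (hAB : B + 1 - A ≤ 2 * r) :
    ‖∑ s ∈ Icc A B, (if Int.gcd r s = 1 then
      eAdd ((h : ℝ) * ((toRoot ((r : ℤ), s)).2 : ℝ) / ((toRoot ((r : ℤ), s)).1 : ℝ)) else 0)‖ ≤
      weight r * Real.sqrt |(h : ℝ)| * (3 + Real.log r) + 2 * π * |(h : ℝ)| * (1 / r) := by
  have hr : (0 : ℝ) < r := Nat.cast_pos.2 (NeZero.pos r)
  obtain ⟨L, hL⟩ : ∃ L, L = (B + 1 - A).toNat := ⟨_, rfl⟩
  have hL2 : (L : ℝ) ≤ 2 * r := by exact_mod_cast (show L ≤ 2 * r by omega)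
  obtain ⟨E, hE⟩ : ∃ E : ℝ, E = π * |(h : ℝ)| / r ^ 2 := ⟨_, rfl⟩
  have hd : ∀ s : ℤ, ‖(if Int.gcd r s = 1 then eAdd ((h : ℝ) * ((toRoot ((r : ℤ), s)).2 : ℝ) /
      ((toRoot ((r : ℤ), s)).1 : ℝ)) else 0) - invExp r (-h) s‖ ≤ E := by
    intro s
    split_ifs with hg
    · rw [eAdd_toRoot hg, ← sub_one_mul, norm_mul, ← eAdd_zero]
      have hinv : ‖invExp r (-h) s‖ = 1 := by
        rw [invExp, if_pos (by rwa [Int.gcd_comm]), ZMod.stdAddChar_apply]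
        exact Circle.norm_coe _
      rw [hinv, mul_one]
      refine (Equidist.norm_eAdd_sub_le _ _).trans ?_
      rw [sub_zero, abs_div, abs_mul, abs_of_nonneg (by positivity : (0 : ℝ) ≤
        (r : ℝ) * ((r : ℝ) ^ 2 + (s : ℝ) ^ 2)), hE, mul_div_assoc', div_le_div_iff₀ (by positivity)
        (by positivity)]
      nlinarith [mul_le_mul_of_nonneg_left (mul_le_mul_of_nonneg_right (show 2 * |(s : ℝ)| * r ≤
          (r : ℝ) ^ 2 + (s : ℝ) ^ 2 by nlinarith [sq_nonneg (|(s : ℝ)| - r), sq_abs (s : ℝ)])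
        hr.le) (show 0 ≤ π * |(h : ℝ)| by positivity)]
    · rw [invExp, if_neg (by rwa [Int.gcd_comm]), sub_zero, norm_zero, hE]
      positivity
  rw [Int.Icc_eq_finset_map, sum_map, ← hL]
  simp only [Function.Embedding.trans_apply, Nat.castEmbedding_apply, addLeftEmbedding_apply]
  refine (norm_le_norm_sub_add _ (∑ i ∈ range L, invExp r (-h) (A + i))).trans ?_
  rw [← sum_sub_distrib, add_comm]
  refine add_le_add ?_ ((norm_sum_le_of_le _ fun (i : ℕ) _ => hd (A + i)).trans ?_)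
  · refine (norm_sum_invExp_le r (-h) A L).trans ?_
    refine mul_le_mul (mul_le_mul_of_nonneg_left (Real.sqrt_le_sqrt ?_) (weight_nonneg r)) ?_
      (by have := Real.log_natCast_nonneg r; positivity)
      (mul_nonneg (weight_nonneg r) (Real.sqrt_nonneg _))
    · rw [show |(h : ℝ)| = (h.natAbs : ℝ) by rw [Nat.cast_natAbs, Int.cast_abs], Int.gcd,
        Int.natAbs_neg]
      exact Nat.cast_le.2 (Nat.le_of_dvd (Int.natAbs_pos.2 hh) (Nat.gcd_dvd_left _ _))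
    · have : (L : ℝ) / r ≤ 2 := (div_le_iff₀ hr).2 hL2
      linarith
  · rw [sum_const, card_range, nsmul_eq_mul, hE]
    refine (mul_le_mul_of_nonneg_right hL2 (by positivity)).trans_eq ?_
    field_simp

/-- **Hooley: the exponential sum over the roots.** -/
theorem exists_norm_rootSum_le : ∃ C : ℝ, 0 < C ∧ ∀ (h : ℤ), h ≠ 0 → ∀ N : ℕ,
    ‖∑ x ∈ rootPairs N, eAdd ((h : ℝ) * (x.2 : ℝ) / (x.1 : ℝ))‖ ≤
      C * |(h : ℝ)| * (N : ℝ) ^ (3 / 4 : ℝ) * (1 + Real.log N) ^ 7 := by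
  obtain ⟨C, hC0, hC⟩ := exists_sum_weight_le
  refine ⟨3 * C + 2 * π, by positivity, fun h hh N => ?_⟩
  rcases Nat.eq_zero_or_pos N with rfl | hN
  · simp [show rootPairs 0 = ∅ by decide]
  obtain ⟨L, hL⟩ : ∃ L, L = Nat.sqrt N := ⟨_, rfl⟩
  obtain ⟨F, hF⟩ : ∃ F : ℕ × ℕ → ℂ, F = fun x => eAdd ((h : ℝ) * (x.2 : ℝ) / (x.1 : ℝ)) :=
    ⟨_, rfl⟩
  have hrow : ∀ r ∈ Icc 1 L, ‖∑ s ∈ Icc (-(L : ℤ)) L,
      if -(r : ℤ) < s ∧ s ≤ r ∧ Int.gcd r s = 1 ∧ (r : ℤ) ^ 2 + s ^ 2 ≤ N then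
        F (toRoot ((r : ℤ), s)) else 0‖ ≤
      weight r * Real.sqrt |(h : ℝ)| * (3 + Real.log r) + 2 * π * |(h : ℝ)| * (1 / r) := by
    intro r hr
    rw [mem_Icc] at hr
    haveI : NeZero r := ⟨by omega⟩
    obtain ⟨M, hM⟩ : ∃ M, M = Nat.sqrt (N - r ^ 2) := ⟨_, rfl⟩
    have hrN : r ^ 2 ≤ N := Nat.le_sqrt'.1 (hL ▸ hr.2)
    have hiff : ∀ s : ℤ, (r : ℤ) ^ 2 + s ^ 2 ≤ N ↔ -(M : ℤ) ≤ s ∧ s ≤ M := fun s => by
      have e : s.natAbs ≤ M ↔ (r : ℤ) ^ 2 + s ^ 2 ≤ N := by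
        rw [hM, Nat.le_sqrt', Nat.le_sub_iff_add_le hrN, ← Int.natAbs_sq s, add_comm]
        norm_cast
      rw [← e]
      omega
    have hset : (Icc (-(L : ℤ)) L).filter (fun s =>
        -(r : ℤ) < s ∧ s ≤ r ∧ Int.gcd r s = 1 ∧ (r : ℤ) ^ 2 + s ^ 2 ≤ N) =
        (Icc (max (-(r : ℤ) + 1) (-(M : ℤ))) (min (r : ℤ) M)).filter
          (fun s => Int.gcd r s = 1) := by
      ext s
      simp only [mem_filter, mem_Icc, hiff, max_le_iff, le_min_iff]
      have : M ≤ L := hM ▸ hL ▸ Nat.sqrt_le_sqrt (Nat.sub_le _ _)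
      omega
    rw [← sum_filter, hset, sum_filter, hF]
    exact norm_row_le hh _ _ (by omega)
  have hsplit : ∑ x ∈ rootPairs N, F x = ∑ r ∈ Icc 1 L, ∑ s ∈ Icc (-(L : ℤ)) L,
      if -(r : ℤ) < s ∧ s ≤ r ∧ Int.gcd r s = 1 ∧ (r : ℤ) ^ 2 + s ^ 2 ≤ N then
        F (toRoot ((r : ℤ), s)) else 0 := by
    rw [sum_rootPairs_eq, gaussPairs, sum_filter, sum_product, ← hL]
    refine (sum_nbij' (fun r : ℕ => (r : ℤ)) Int.toNat ?_ ?_ (fun _ _ => rfl) ?_
      fun _ _ => rfl).symm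
    · exact fun r hr => by simp only [mem_Icc] at hr ⊢; omega
    · exact fun r hr => by simp only [mem_Icc] at hr ⊢; omega
    · exact fun r hr => Int.toNat_of_nonneg (by simp only [mem_Icc] at hr; omega)
  simp only [hF] at hsplit hrow
  rw [hsplit]
  refine (norm_sum_le_of_le _ hrow).trans ?_
  have hlogN : 0 ≤ Real.log N := Real.log_natCast_nonneg N
  have hh1 : (1 : ℝ) ≤ |(h : ℝ)| := by exact_mod_cast Int.one_le_abs hh
  have hsh : Real.sqrt |(h : ℝ)| ≤ |(h : ℝ)| := by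
    rw [Real.sqrt_le_iff]
    exact ⟨by linarith, le_self_pow₀ hh1 two_ne_zero⟩
  have hLN : (L : ℝ) ≤ N := Nat.cast_le.2 (hL ▸ Nat.sqrt_le_self N)
  have hN1 : (1 : ℝ) ≤ N := Nat.one_le_cast.2 hN
  have hL1 : (1 : ℝ) ≤ L := Nat.one_le_cast.2 (hL ▸ Nat.sqrt_pos.2 hN)
  have hlogL : Real.log L ≤ Real.log N := Real.log_le_log (by linarith) hLN
  obtain ⟨T, hT⟩ : ∃ T : ℝ, T = (N : ℝ) ^ (3 / 4 : ℝ) := ⟨_, rfl⟩
  have hLT : (L : ℝ) * Real.sqrt L ≤ T := by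
    have hLs : (L : ℝ) ≤ Real.sqrt N := hL ▸ Real.nat_sqrt_le_real_sqrt
    refine (mul_le_mul hLs (Real.sqrt_le_sqrt hLs) (Real.sqrt_nonneg _)
      (Real.sqrt_nonneg _)).trans_eq ?_
    rw [hT, Real.sqrt_eq_rpow, Real.sqrt_eq_rpow, ← Real.rpow_mul (by linarith),
      ← Real.rpow_add (by linarith)]
    norm_num
  have hsum : ∑ r ∈ Icc 1 L, weight r * Real.sqrt |(h : ℝ)| * (3 + Real.log r) ≤
      (∑ r ∈ Icc 1 L, weight r) * (|(h : ℝ)| * (3 * (1 + Real.log N))) := by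
    rw [sum_mul]
    refine sum_le_sum fun r hr => ?_
    rw [mem_Icc] at hr
    rw [mul_assoc]
    refine mul_le_mul_of_nonneg_left (mul_le_mul hsh ?_ ?_ (by linarith)) (weight_nonneg r)
    · have : Real.log r ≤ Real.log N := (Real.log_le_log (Nat.cast_pos.2 hr.1)
        (Nat.cast_le.2 hr.2)).trans hlogL
      linarith
    · linarith [Real.log_natCast_nonneg r]
  have hharm : ∑ r ∈ Icc 1 L, (1 : ℝ) / r ≤ T * (1 + Real.log N) ^ 7 := by
    have h1 := harmonic_le_one_add_log L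
    rw [harmonic_eq_sum_Icc, Rat.cast_sum] at h1
    refine ((sum_congr rfl fun r _ => by simp).trans_le h1).trans ?_
    refine (show 1 + Real.log L ≤ 1 * (1 + Real.log N) ^ 7 by
      rw [one_mul]
      exact (show 1 + Real.log L ≤ 1 + Real.log N by linarith).trans
        (le_self_pow₀ (by linarith) (by norm_num))).trans ?_
    gcongr
    exact hT ▸ Real.one_le_rpow hN1 (by norm_num)
  have hT0 : 0 ≤ T := hT ▸ by positivity
  have hW : ∑ r ∈ Icc 1 L, weight r ≤ C * T * (1 + Real.log N) ^ 6 := by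
    refine (hC L).trans ?_
    gcongr
  rw [sum_add_distrib, ← mul_sum, ← hT]
  have hw' := mul_le_mul_of_nonneg_right hW
    (show 0 ≤ |(h : ℝ)| * (3 * (1 + Real.log N)) by positivity)
  have hh' := mul_le_mul_of_nonneg_left hharm (show 0 ≤ 2 * π * |(h : ℝ)| by positivity)
  refine (add_le_add (hsum.trans hw') hh').trans_eq ?_
  ring

/-- A power saving. -/
theorem exists_norm_rootSum_le_rpow : ∃ C : ℝ, ∀ (h : ℤ), h ≠ 0 → ∀ N : ℕ, 1 ≤ N →
    ‖∑ x ∈ rootPairs N, eAdd ((h : ℝ) * (x.2 : ℝ) / (x.1 : ℝ))‖ ≤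
      C * |(h : ℝ)| * (N : ℝ) ^ (37 / 40 : ℝ) := by
  obtain ⟨C, hC0, hC⟩ := exists_norm_rootSum_le
  refine ⟨C * 41 ^ 7, fun h hh N hN => (hC h hh N).trans ?_⟩
  have hN1 : (1 : ℝ) ≤ N := Nat.one_le_cast.2 hN
  have h1 := Real.log_natCast_le_rpow_div N (show (0 : ℝ) < 1 / 40 by norm_num)
  have h2 : (1 : ℝ) ≤ (N : ℝ) ^ (1 / 40 : ℝ) := Real.one_le_rpow hN1 (by norm_num)
  have h3 : 1 + Real.log N ≤ 41 * (N : ℝ) ^ (1 / 40 : ℝ) := by
    rw [le_div_iff₀ (by norm_num)] at h1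
    linarith
  refine (mul_le_mul_of_nonneg_left (pow_le_pow_left₀
    (by linarith [Real.log_natCast_nonneg N]) h3 7) (by positivity)).trans_eq ?_
  rw [mul_pow, ← Real.rpow_natCast ((N : ℝ) ^ (1 / 40 : ℝ)) 7, ← Real.rpow_mul (by linarith)]
  calc C * |(h : ℝ)| * (N : ℝ) ^ (3 / 4 : ℝ) * (41 ^ 7 * (N : ℝ) ^ (1 / 40 * (7 : ℕ) : ℝ))
      = C * 41 ^ 7 * |(h : ℝ)| * ((N : ℝ) ^ (3 / 4 : ℝ) * (N : ℝ) ^ (1 / 40 * (7 : ℕ) : ℝ)) := by
        ring
    _ = C * 41 ^ 7 * |(h : ℝ)| * (N : ℝ) ^ (37 / 40 : ℝ) := by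
        rw [← Real.rpow_add (by linarith)]
        norm_num

/-- The number of roots. -/
theorem tendsto_card_rootPairs :
    Tendsto (fun N : ℕ => (#(rootPairs N) : ℝ) / N) atTop (𝓝 (3 / (2 * π))) := by
  have hlog : Tendsto (fun N : ℕ => 6 * 41 * (N : ℝ) ^ (-(19 / 40) : ℝ)) atTop (𝓝 0) := by
    have := ((tendsto_rpow_neg_atTop (show (0 : ℝ) < 19 / 40 by norm_num)).comp
      tendsto_natCast_atTop_atTop).const_mul (6 * 41 : ℝ)
    rwa [mul_zero] at this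
  refine tendsto_iff_norm_sub_tendsto_zero.2 (squeeze_zero' (Eventually.of_forall fun _ =>
    norm_nonneg _) ?_ hlog)
  filter_upwards [eventually_ge_atTop 1] with N hN
  have hN1 : (1 : ℝ) ≤ N := Nat.one_le_cast.2 hN
  have h1 := Real.log_natCast_le_rpow_div N (show (0 : ℝ) < 1 / 40 by norm_num)
  rw [le_div_iff₀ (by norm_num)] at h1
  have h2 : (1 : ℝ) ≤ (N : ℝ) ^ (1 / 40 : ℝ) := Real.one_le_rpow hN1 (by norm_num)
  rw [card_rootPairs, Nat.cast_sum, Real.norm_eq_abs, div_sub' (by positivity), abs_div,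
    Nat.abs_cast, div_le_iff₀ (by positivity), mul_comm (N : ℝ) (3 / (2 * π))]
  refine (abs_sum_rootCount_sub_le N).trans ?_
  refine (mul_le_mul_of_nonneg_left (show 1 + Real.log N ≤ 41 * (N : ℝ) ^ (1 / 40 : ℝ) by
    linarith) (by positivity)).trans_eq ?_
  calc 6 * Real.sqrt N * (41 * (N : ℝ) ^ (1 / 40 : ℝ))
      = 6 * 41 * ((N : ℝ) ^ (1 / 2 : ℝ) * (N : ℝ) ^ (1 / 40 : ℝ)) := by
        rw [Real.sqrt_eq_rpow]
        ring
    _ = 6 * 41 * ((N : ℝ) ^ (-(19 / 40) : ℝ) * (N : ℝ) ^ (1 : ℝ)) := by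
        rw [← Real.rpow_add (by linarith), ← Real.rpow_add (by linarith)]
        norm_num
    _ = _ := by rw [Real.rpow_one]; ring

/-- **Hooley: the ratios `ν / n` are equidistributed.** -/
theorem tendsto_roots_in_interval {a b : ℝ} (ha : 0 ≤ a) (hab : a ≤ b) (hb : b ≤ 1) :
    Tendsto (fun N : ℕ =>
      (#((rootPairs N).filter fun x => (x.2 : ℝ) / x.1 ∈ Set.Ico a b) : ℝ) / N) atTop
      (𝓝 ((b - a) * (3 / (2 * π)))) := by
  let s : ℕ → Finset ℕ := fun N => (rootPairs N).image fun x => Nat.pair x.1 x.2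
  let t : ℕ → ℝ := fun m => ((Nat.unpair m).2 : ℝ) / (Nat.unpair m).1
  have hinj : ∀ N, Set.InjOn (fun x : ℕ × ℕ => Nat.pair x.1 x.2) (rootPairs N : Set (ℕ × ℕ)) :=
    fun N x _ y _ e => by
      have := congrArg Nat.unpair e
      simpa using this
  have hcard : ∀ N, #(s N) = #(rootPairs N) := fun N => card_image_of_injOn (hinj N)
  have hpos : (0 : ℝ) < 3 / (2 * π) := by positivity
  have hT := tendsto_card_rootPairs
  have hs : Tendsto (fun N => #(s N)) atTop atTop := by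
    simp only [hcard]
    refine tendsto_natCast_atTop_iff.1
      (((hT.pos_mul_atTop hpos tendsto_natCast_atTop_atTop)).congr' ?_)
    filter_upwards [eventually_ge_atTop 1] with N hN
    exact div_mul_cancel₀ _ (Nat.cast_ne_zero.2 (by omega))
  have hx : Equidist.ExpMeanZero s t := by
    intro h hh
    obtain ⟨C, hC⟩ := exists_norm_rootSum_le_rpow
    have h0 : Tendsto (fun N : ℕ => C * |(h : ℝ)| * (N : ℝ) ^ (-(3 / 40) : ℝ) /
        ((#(rootPairs N) : ℝ) / N)) atTop (𝓝 0) := by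
      have h1 := ((tendsto_rpow_neg_atTop (show (0 : ℝ) < 3 / 40 by norm_num)).comp
        tendsto_natCast_atTop_atTop).const_mul (C * |(h : ℝ)|)
      rw [mul_zero] at h1
      simpa [Pi.div_def, Function.comp_def] using h1.div hT hpos.ne'
    refine squeeze_zero_norm' ?_ h0
    filter_upwards [eventually_ge_atTop 1] with N hN
    have hN0 : (0 : ℝ) < N := Nat.cast_pos.2 hN
    rw [Equidist.avg, norm_div, Complex.norm_natCast, sum_image (hinj N), hcard, div_div_eq_mul_div]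
    refine div_le_div_of_nonneg_right ?_ (Nat.cast_nonneg _)
    simp only [t, Nat.unpair_pair, ← mul_div_assoc]
    refine (hC h hh N hN).trans_eq ?_
    conv_lhs => rw [show (37 / 40 : ℝ) = -(3 / 40) + 1 by norm_num, Real.rpow_add hN0,
      Real.rpow_one, ← mul_assoc]
  have hlim := (Equidist.ExpMeanZero.intervalMean hs hx a b ha hab hb).mul hT
  refine hlim.congr' ?_
  filter_upwards [hs.eventually (eventually_gt_atTop 0)] with N hN
  rw [div_mul_div_comm, mul_comm (#(s N) : ℝ), ← hcard]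
  rw [show ((rootPairs N).filter fun x => (x.2 : ℝ) / x.1 ∈ Set.Ico a b) =
    (rootPairs N).filter fun x => Int.fract (t (Nat.pair x.1 x.2)) ∈ Set.Ico a b from
      filter_congr fun x hx => by
        obtain ⟨-, h2, -⟩ := mem_rootPairs.1 hx
        have hx0 : (0 : ℝ) < x.1 := Nat.cast_pos.2 (by omega)
        simp only [t, Nat.unpair_pair]
        rw [Int.fract_eq_self.2 ⟨by positivity, (div_lt_one hx0).2 (Nat.cast_lt.2 h2)⟩]]
  simp only [s, filter_image]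
  rw [card_image_of_injOn ((hinj N).mono (coe_subset.2 (filter_subset _ _))),
    mul_div_mul_right _ _ (Nat.cast_ne_zero.2 hN.ne')]

end FA.HooleyRoots
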